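import Fermat.Agent.S55.Fc.Trans.Count

/-!
# S55 F-con 9e: the sum of the local `h¹`
-/

set_option autoImplicit false

noncomputable section

namespace Fermat.Agent.S55

open Representation Module

variable {k : Type} [Field k] {G : Type} [Group G]

/-- `D_g`, seen in `G`, is `D ⊓ g⁻¹ U g`. -/
lemma L1g_map_mackeySub (U D : Subgroup G) (g : G) :
    (mackeySub U D.subtype g).map D.subtype = D ⊓ conjSub U g⁻¹ := by
  ext x
  rw [Subgroup.mem_map, Subgroup.mem_inf, mem_conjSub, inv_inv]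
  constructor
  · rintro ⟨d, hd, rfl⟩
    exact ⟨d.2, hd⟩
  · rintro ⟨h1, h2⟩
    exact ⟨⟨x, h1⟩, h2, rfl⟩

/-- transport along an equality of subgroups -/
lemma L1g_nonempty_of_eq (L : Lev G) {W W' : Subgroup G} (h : W = W') :
    Nonempty (H1 (L.sub W) (Representation.trivial k W k) ≃ₗ[k]
      H1 (L.sub W') (Representation.trivial k W' k)) := by
  subst h
  exact ⟨LinearEquiv.refl _ _⟩

/-- the local factor of the Mackey decomposition -/
lemma L1g_nonempty_factor (L : Lev G) (U D : Subgroup G) (g : G) :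
    Nonempty (H1 ((L.sub D).sub (mackeySub U D.subtype g))
        ((Representation.trivial k U k).comp (mackeyHom U D.subtype g)) ≃ₗ[k]
      H1 (L.sub (D ⊓ conjSub U g⁻¹)) (Representation.trivial k ↥(D ⊓ conjSub U g⁻¹) k)) := by
  obtain ⟨e1⟩ := nonempty_H1_sub_sub (k := k) L D (mackeySub U D.subtype g)
  obtain ⟨e2⟩ := L1g_nonempty_of_eq (k := k) L (L1g_map_mackeySub U D g)
  exact ⟨e1.trans e2⟩

variable (𝒮 : LocSys G)

/-- [Tr-d3] Mackey for `H¹` with trivial coefficients, in terms of subgroups of `G`: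
`W_g := D ⊓ g⁻¹ U g`. -/
lemma LocSys.finrank_H1_res_X (U D : Subgroup G) (hU : 𝒮.L.IsOpen U) {T : Finset G}
    (hT : IsMackeyReps U D.subtype T)
    (hfin : ∀ g ∈ T, Module.Finite k (H1 (𝒮.L'.sub (D ⊓ conjSub U g⁻¹))
      (Representation.trivial k ↥(D ⊓ conjSub U g⁻¹) k))) :
    finrank k (H1 (𝒮.L'.sub D) ((F.X k U).comp D.subtype))
      = ∑ g ∈ T, finrank k (H1 (𝒮.L'.sub (D ⊓ conjSub U g⁻¹))
          (Representation.trivial k ↥(D ⊓ conjSub U g⁻¹) k)) := by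
  have hσ : IsDiscrete (𝒮.L.sub U) (Representation.trivial k U k) := by
    intro m
    obtain ⟨V, hV⟩ := (𝒮.L.sub U).nonempty
    exact ⟨V, hV, fun _ _ => rfl⟩
  have hb := mackey_H1_bijective (LD := 𝒮.L'.sub D) U (Representation.trivial k U k) D.subtype hU
    (𝒮.cont_subtype D) hσ hT
  have e := fun g : T => (L1g_nonempty_factor (k := k) 𝒮.L' U D (g : G)).some
  have hfin' : ∀ g : T, Module.Finite k (H1 ((𝒮.L'.sub D).sub (mackeySub U D.subtype (g : G)))
        ((Representation.trivial k U k).comp (mackeyHom U D.subtype (g : G)))) := fun g => by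
    have := hfin g g.2
    exact Module.Finite.equiv (e g).symm
  have hfree : ∀ g : T, Module.Free k (H1 ((𝒮.L'.sub D).sub (mackeySub U D.subtype (g : G)))
        ((Representation.trivial k U k).comp (mackeyHom U D.subtype (g : G)))) := fun g =>
    Module.Free.of_divisionRing _ _
  rw [(LinearEquiv.ofBijective _ hb).finrank_eq, Module.finrank_pi_fintype,
    ← Finset.sum_coe_sort T]
  exact Finset.sum_congr rfl fun g _ => (e g).finrank_eq

variable {p : ℕ} [Fact p.Prime] {ω : G →* (ZMod p)ˣ} {dl : 𝒮.ι → ℕ}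

/-- [Tr-d6] -/
theorem LocSys.CoreNumbers.l1g (h : 𝒮.CoreNumbers ω dl) (U : Subgroup G) (hU : 𝒮.L.IsOpen U)
    (hUω : U ≤ ω.ker) :
    ∑ v, finrank (ZMod p) (H1 (𝒮.L'.sub (𝒮.Dv v)) ((F.X (ZMod p) U).comp (𝒮.Dv v).subtype))
      = 2 * 𝒮.sU U + U.index := by
  have hfi : U.FiniteIndex := hU.finiteIndex
  -- a normal fine level inside `U`
  obtain ⟨U0, hU0, hU0U⟩ := hU
  obtain ⟨V', hV', hV'U0⟩ := 𝒮.fine U0 hU0
  obtain ⟨V, hV, hVV', hVn⟩ := 𝒮.L'.normal V' hV'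
  have hVU : V ≤ U := fun x hx => hU0U (hV'U0 (hVV' hx))
  have hopen : ∀ (v : 𝒮.ι) (g : G), 𝒮.IsOpenIn (𝒮.Dv v) (𝒮.Dv v ⊓ conjSub U g⁻¹) := by
    intro v g
    refine ⟨V, hV, fun x hx => ⟨hx.2, ?_⟩⟩
    show x ∈ conjSub U g⁻¹
    rw [mem_conjSub, inv_inv]
    exact hVU (hVn.conj_mem x hx.1 g)
  have hker : ∀ (v : 𝒮.ι) (g : G), 𝒮.Dv v ⊓ conjSub U g⁻¹ ≤ ω.ker := by
    intro v g x hx
    have h1 := hUω (mem_conjSub.mp hx.2)
    rw [inv_inv, MonoidHom.mem_ker, map_mul, map_mul, map_inv, mul_comm, inv_mul_cancel_left] at h1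
    exact h1
  have key : ∀ v, finrank (ZMod p)
      (H1 (𝒮.L'.sub (𝒮.Dv v)) ((F.X (ZMod p) U).comp (𝒮.Dv v).subtype))
      = 2 * Nat.card (DoubleCoset.Quotient (U : Set G) (𝒮.Dv v : Set G)) + dl v * U.index := by
    intro v
    obtain ⟨T, hT⟩ := exists_isMackeyReps U (𝒮.Dv v).subtype
    rw [𝒮.finrank_H1_res_X U (𝒮.Dv v) ⟨U0, hU0, hU0U⟩ hT
      fun g _ => (h.l1 v _ inf_le_left (hopen v g) (hker v g)).1]
    rw [Finset.sum_congr rfl fun g _ => (h.l1 v _ inf_le_left (hopen v g) (hker v g)).2,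
      Finset.sum_add_distrib, ← Finset.mul_sum, sum_relIndex_conjSub U (𝒮.Dv v) hT,
      Finset.sum_const, smul_eq_mul, IsMackeyReps.card_eq U (𝒮.Dv v) hT, mul_comm]
  rw [Finset.sum_congr rfl fun v _ => key v, Finset.sum_add_distrib, ← Finset.mul_sum,
    ← Finset.sum_mul, h.dl_sum, one_mul]
  rfl

end Fermat.Agent.S55

end
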