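import Fermat.Agent.S55.Fc.Trans.ShaAux

/-!
# S55 F-con 9c: `Ш²(G, X_U) ≅ Ш²(U; k)`
-/

set_option autoImplicit false

noncomputable section

namespace Fermat.Agent.S55

open Representation Module

/-- the trivial representation is discrete -/
lemma isDiscrete_trivial_sha {k : Type*} [CommRing k] {G : Type} [Group G] (L : Lev G) :
    IsDiscrete L (Representation.trivial k G k) := by
  intro m
  obtain ⟨V, hV⟩ := L.nonempty
  exact ⟨V, hV, fun _ _ => rfl⟩

variable {k : Type} [Field k] {G : Type} [Group G] (𝒮 : LocSys G)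

/-- [Tr-c2] a class of `H²(G, X_U)` dies in `H²(D, Res X_U)` iff its Shapiro image dies on all
`U ⊓ g D g⁻¹`. -/
lemma LocSys.res_X_eq_zero_iff (U D : Subgroup G) (hU : 𝒮.L.IsOpen U) (c : H2 𝒮.L (F.X k U)) :
    (PairHom.res (F.X k U) D.subtype (𝒮.cont_subtype D)).H2map c = 0 ↔
      ∀ g : G, (trivRes k (Subgroup.inclusion (inf_le_left : U ⊓ conjSub D g ≤ U))
        (𝒮.cont_inclusion _)).H2map
          ((shapiro U.subtype (Representation.trivial k U k) (𝒮.L.cont_comap _)).H2map c) = 0 := by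
  have hsq : ∀ g : G, (mackeyEv U (Representation.trivial k U k) D.subtype (𝒮.L'.sub D) g).H2map
      ((PairHom.res (F.X k U) D.subtype (𝒮.cont_subtype D)).H2map c)
      = (PairHom.res (Representation.trivial k U k) (mackeyHom U D.subtype g)
          (mackeyHom_cont U D.subtype (𝒮.cont_subtype D) g)).H2map
        ((shapiro U.subtype (Representation.trivial k U k) (𝒮.L.cont_comap _)).H2map c) :=
    fun g => LinearMap.congr_fun
      (mackey_square U (Representation.trivial k U k) D.subtype (𝒮.cont_subtype D) g).2.2 c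
  constructor
  · intro h g
    rw [← 𝒮.res_mackeyHom_eq_zero_iff U D g, ← hsq g, h, map_zero]
  · intro h
    have hfi : U.FiniteIndex := hU.finiteIndex
    obtain ⟨T, hT⟩ := exists_isMackeyReps U D.subtype
    have hinj := (mackey_H2_bijective U (Representation.trivial k U k) D.subtype hU
      (𝒮.cont_subtype D) (isDiscrete_trivial_sha _) hT).1
    apply hinj
    rw [map_zero]
    funext g
    show (mackeyEv U (Representation.trivial k U k) D.subtype (𝒮.L'.sub D) (g : G)).H2map _ = 0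
    rw [hsq (g : G), 𝒮.res_mackeyHom_eq_zero_iff U D (g : G)]
    exact h g

variable {p : ℕ} [Fact p.Prime] (ω : G →* (ZMod p)ˣ) (hω : 𝒮.L.IsOpen ω.ker) (dl : 𝒮.ι → ℕ)

/-- membership in `Ш²(G, X_U)` via Shapiro -/
lemma LocSys.mem_sha2_X_iff (U : Subgroup G) (hU : 𝒮.L.IsOpen U)
    (c : H2 𝒮.L (F.X (ZMod p) U)) :
    c ∈ ((𝒮.datum ω hω dl).sha2 (F.X (ZMod p) U) :
        Submodule (ZMod p) (H2 𝒮.L (F.X (ZMod p) U))) ↔
      (shapiro U.subtype (Representation.trivial (ZMod p) U (ZMod p))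
        (𝒮.L.cont_comap _)).H2map c ∈ 𝒮.sha2U (ZMod p) U := by
  have h1 : c ∈ ((𝒮.datum ω hω dl).sha2 (F.X (ZMod p) U) :
        Submodule (ZMod p) (H2 𝒮.L (F.X (ZMod p) U))) ↔
      ∀ v : 𝒮.ι, (PairHom.res (F.X (ZMod p) U) (𝒮.Dv v).subtype
        (𝒮.cont_subtype (𝒮.Dv v))).H2map c = 0 := by
    constructor
    · intro h v
      exact congrFun h v
    · intro h
      exact funext h
  rw [h1, LocSys.sha2U]
  simp only [Submodule.mem_iInf, LinearMap.mem_ker]
  exact forall_congr' fun v => 𝒮.res_X_eq_zero_iff U (𝒮.Dv v) hU c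

/-- [Tr-c3] -/
theorem LocSys.nonempty_sha2_X (U : Subgroup G) (hU : 𝒮.L.IsOpen U) :
    Nonempty ((𝒮.datum ω hω dl).sha2 (F.X (ZMod p) U) ≃ₗ[ZMod p] 𝒮.sha2U (ZMod p) U) := by
  have hbij := shapiro_H2_bijective (L := 𝒮.L) (LH := 𝒮.L.sub U) U.subtype
    (Representation.trivial (ZMod p) U (ZMod p)) (Subgroup.subtype_injective U)
    (by rw [Subgroup.range_subtype]; exact hU) (𝒮.L.induced_comap _) (isDiscrete_trivial_sha _)
  set Sh := (shapiro U.subtype (Representation.trivial (ZMod p) U (ZMod p))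
    (𝒮.L.cont_comap U.subtype)).H2map with hSh
  set P : Submodule (ZMod p) (H2 𝒮.L (F.X (ZMod p) U)) :=
    (𝒮.datum ω hω dl).sha2 (F.X (ZMod p) U) with hP
  have hmem : ∀ c, c ∈ P ↔ Sh c ∈ 𝒮.sha2U (ZMod p) U := 𝒮.mem_sha2_X_iff ω hω dl U hU
  let φ : P →ₗ[ZMod p] 𝒮.sha2U (ZMod p) U := Sh.restrict fun c hc => (hmem c).mp hc
  have hφ : Function.Bijective φ := by
    constructor
    · intro a b hab
      apply Subtype.ext
      apply hbij.1
      exact congrArg Subtype.val hab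
    · intro y
      obtain ⟨c, hc⟩ := hbij.2 (y : H2 (𝒮.L.sub U) (Representation.trivial (ZMod p) U (ZMod p)))
      refine ⟨⟨c, (hmem c).mpr ?_⟩, Subtype.ext hc⟩
      show Sh c ∈ _
      rw [hc]
      exact y.2
  exact ⟨LinearEquiv.ofBijective φ hφ⟩

end Fermat.Agent.S55

end
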