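import Fermat.Agent.S55.Fc.Trans.Local
import Fermat.Agent.S55.Fc.Trans.Sha
import Fermat.Agent.S55.Fc.Trans.L1g

/-!
# S55 F-con 9f: **TARGET #2**: `CoreNumbers → Numbers`
-/

set_option autoImplicit false

noncomputable section

namespace Fermat.Agent.S55

open Representation Module

variable {G : Type} [Group G] (𝒮 : LocSys G) {p : ℕ} [Fact p.Prime]
variable {ω : G →* (ZMod p)ˣ} {dl : 𝒮.ι → ℕ}

theorem LocSys.CoreNumbers.numbers_n1 (h : 𝒮.CoreNumbers ω dl) (hω : 𝒮.L.IsOpen ω.ker)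
    (U : Subgroup G) (hU : 𝒮.L.IsOpen U) (hUω : U ≤ ω.ker) :
    2 * finrank (ZMod p) ((𝒮.datum ω hω dl).CG.H1 (F.X (ZMod p) U)) =
      2 * finrank (ZMod p) ((𝒮.datum ω hω dl).sha2 (F.X (ZMod p) U)) + U.index +
        2 * (𝒮.datum ω hω dl).s U := by
  obtain ⟨e₁⟩ := nonempty_H1_X (k := ZMod p) 𝒮.L U hU
  obtain ⟨e₂⟩ := 𝒮.nonempty_sha2_X ω hω dl U hU
  have h1 : finrank (ZMod p) ((𝒮.datum ω hω dl).CG.H1 (F.X (ZMod p) U)) =
      finrank (ZMod p) (H1 (𝒮.L.sub U) (Representation.trivial (ZMod p) U (ZMod p))) :=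
    e₁.finrank_eq
  have h2 := e₂.finrank_eq
  have h3 : (𝒮.datum ω hω dl).s U = 𝒮.sU U := 𝒮.s_eq hω U hU
  rw [h1, h2, h3]
  exact (h.n1 U hU hUω).2.2

theorem LocSys.CoreNumbers.numbers_l1g (h : 𝒮.CoreNumbers ω dl) (hω : 𝒮.L.IsOpen ω.ker)
    (U : Subgroup G) (hU : 𝒮.L.IsOpen U) (hUω : U ≤ ω.ker) :
    ∑ v, finrank (ZMod p) (((𝒮.datum ω hω dl).CD v).H1
      (F.res ((𝒮.datum ω hω dl).r v) (F.X (ZMod p) U))) =
      2 * (𝒮.datum ω hω dl).s U + U.index := by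
  have h3 : (𝒮.datum ω hω dl).s U = 𝒮.sU U := 𝒮.s_eq hω U hU
  rw [h3]
  exact h.l1g 𝒮 U hU hUω

theorem LocSys.CoreNumbers.numbers (h : 𝒮.CoreNumbers ω dl) (hω : 𝒮.L.IsOpen ω.ker) :
    (𝒮.datum ω hω dl).Numbers where
  ne := h.ne
  loc := fun v => h.localNumbers 𝒮 hω v
  n1_fin1 := fun U hU hUω => by
    obtain ⟨e⟩ := nonempty_H1_X (k := ZMod p) 𝒮.L U hU
    have := (h.n1 U hU hUω).1
    exact Module.Finite.equiv e.symm
  n1_fin2 := fun U hU hUω => by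
    obtain ⟨e⟩ := 𝒮.nonempty_sha2_X ω hω dl U hU
    have := (h.n1 U hU hUω).2.1
    exact Module.Finite.equiv e.symm
  n1 := fun U hU hUω => h.numbers_n1 𝒮 hω U hU hUω
  n2 := fun x v hx => h.n2 x v hx
  n3 := fun U hU hUω => by
    obtain ⟨n, c, hc0, hc, hs⟩ := h.n3 U hU hUω
    refine ⟨n, c, hc0, hc, ?_⟩
    have hopen : 𝒮.L.IsOpen (c n) := by
      cases n with
      | zero => rw [hc0]; exact hU
      | succ n => exact (hc n).2.1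
    have h3 : (𝒮.datum ω hω dl).s (c n) = 𝒮.sU (c n) := 𝒮.s_eq hω (c n) hopen
    exact h3.le.trans hs
  l1g := fun U hU hUω => h.numbers_l1g 𝒮 hω U hU hUω

end Fermat.Agent.S55

end
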