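import Fermat.Agent.S55.Fc.Trans.Glue

/-!
# S55 F-con 9d: counting places
-/

set_option autoImplicit false

noncomputable section

namespace Fermat.Agent.S55

open Representation Module

variable {k : Type} [Field k] {G : Type} [Group G]

/-- [Tr-d1] a set of Mackey representatives has as many elements as there are double cosets -/
lemma IsMackeyReps.card_eq (U D : Subgroup G) {T : Finset G} (hT : IsMackeyReps U D.subtype T) :
    T.card = Nat.card (DoubleCoset.Quotient (U : Set G) (D : Set G)) := by
  classical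
  have hb : Function.Bijective (fun g : T => DoubleCoset.mk U D (g : G)) := by
    constructor
    · intro g g' h
      obtain ⟨u, hu, d, hd, hg⟩ := (DoubleCoset.eq U D _ _).1 h
      obtain ⟨x, -, hx⟩ := hT (g' : G)
      have h1 := hx (g : G) ⟨g.2, u, hu, ⟨d, hd⟩, hg⟩
      have h2 := hx (g' : G) ⟨g'.2, 1, U.one_mem, 1, by simp⟩
      exact Subtype.ext (h1.trans h2.symm)
    · intro q
      obtain ⟨g, ⟨hg, u, hu, d, hx⟩, -⟩ := hT q.out
      refine ⟨⟨g, hg⟩, ?_⟩
      rw [← DoubleCoset.out_eq' U D q]
      exact (DoubleCoset.eq U D _ _).2 ⟨u, hu, d, d.2, hx⟩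
  rw [← Nat.card_eq_of_bijective _ hb, Nat.card_eq_fintype_card, Fintype.card_coe]

/-- functions on double cosets as invariant elements of `X_U` -/
def countPsi (k : Type) [Field k] (U D : Subgroup G) :
    (DoubleCoset.Quotient (U : Set G) (D : Set G) → k) →ₗ[k]
      (F.res D.subtype (F.X k U)).invariants where
  toFun φ := ⟨⟨fun g => φ (DoubleCoset.mk U D g), fun u g => by
      show φ (DoubleCoset.mk U D ((u : G) * g)) = φ (DoubleCoset.mk U D g)
      congr 1
      exact ((DoubleCoset.eq U D _ _).2 ⟨u, u.2, 1, D.one_mem, by simp⟩).symm⟩, fun d => by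
      ext g
      show φ (DoubleCoset.mk U D (g * (d : G))) = φ (DoubleCoset.mk U D g)
      congr 1
      exact ((DoubleCoset.eq U D _ _).2 ⟨1, U.one_mem, d, d.2, by simp⟩).symm⟩
  map_add' _ _ := rfl
  map_smul' _ _ := rfl

lemma countPsi_apply (U D : Subgroup G) (φ : DoubleCoset.Quotient (U : Set G) (D : Set G) → k)
    (g : G) : (((countPsi k U D φ : (F.res D.subtype (F.X k U)).invariants) :
      coindV U.subtype (Representation.trivial k U k)) : G → k) g = φ (DoubleCoset.mk U D g) := rfl

lemma countPsi_bijective (U D : Subgroup G) : Function.Bijective (countPsi k U D) := by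
  constructor
  · intro φ φ' h
    ext q
    have h1 := countPsi_apply U D φ q.out
    have h2 := countPsi_apply U D φ' q.out
    rw [DoubleCoset.out_eq'] at h1 h2
    rw [← h1, ← h2, h]
  · intro Fi
    refine ⟨fun q => ((Fi : coindV U.subtype (Representation.trivial k U k)) : G → k) q.out, ?_⟩
    ext g
    rw [countPsi_apply]
    obtain ⟨u, hu, d, hd, hg⟩ := (DoubleCoset.eq U D _ _).1
      (DoubleCoset.out_eq' U D (DoubleCoset.mk U D g))
    -- `g = u * out * d`
    set o := (DoubleCoset.mk U D g).out with ho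
    have h1 : ((Fi : coindV U.subtype (Representation.trivial k U k)) : G → k) (u * o)
        = ((Fi : coindV U.subtype (Representation.trivial k U k)) : G → k) o :=
      (Fi : coindV U.subtype (Representation.trivial k U k)).2 ⟨u, hu⟩ o
    have h2 := congrFun (congrArg Subtype.val (Fi.2 ⟨d, hd⟩)) (u * o)
    have h3 : ((Fi : coindV U.subtype (Representation.trivial k U k)) : G → k) (u * o * d)
        = ((Fi : coindV U.subtype (Representation.trivial k U k)) : G → k) (u * o) := h2
    rw [hg, h3, h1]

/-- [Tr-d2] `dim (X_U)^D = #(U \ G / D)` -/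
lemma finrank_invariants_res_X (U D : Subgroup G) [U.FiniteIndex] :
    finrank k (F.res D.subtype (F.X k U)).invariants
      = Nat.card (DoubleCoset.Quotient (U : Set G) (D : Set G)) := by
  classical
  have := finite_doubleCoset_of_finiteIndex U D
  have : Fintype (DoubleCoset.Quotient (U : Set G) (D : Set G)) := Fintype.ofFinite _
  rw [← (LinearEquiv.ofBijective (countPsi k U D) (countPsi_bijective U D)).finrank_eq,
    Module.finrank_fintype_fun_eq_card, Nat.card_eq_fintype_card]

/-- [Tr-d4] -/
lemma sum_relIndex_conjSub (U D : Subgroup G) [U.FiniteIndex] {T : Finset G}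
    (hT : IsMackeyReps U D.subtype T) :
    ∑ g ∈ T, (D ⊓ conjSub U g⁻¹).relIndex D = U.index := by
  rw [← sum_index_mackeySub U D.subtype hT]
  refine Finset.sum_congr rfl fun g _ => ?_
  unfold Subgroup.relIndex
  congr 1
  ext d
  rw [Subgroup.mem_subgroupOf, Subgroup.mem_inf, mem_conjSub, mem_mackeySub, inv_inv]
  exact ⟨fun h => h.2, fun h => ⟨d.2, h⟩⟩

variable (𝒮 : LocSys G)

variable {p : ℕ} [Fact p.Prime] {ω : G →* (ZMod p)ˣ} {dl : 𝒮.ι → ℕ}

/-- [Tr-d5] -/
theorem LocSys.s_eq (hω : 𝒮.L.IsOpen ω.ker) (U : Subgroup G) (hU : 𝒮.L.IsOpen U) :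
    (𝒮.datum ω hω dl).s U = 𝒮.sU U := by
  have := hU.finiteIndex
  unfold F.Datum.s LocSys.sU
  exact Finset.sum_congr rfl fun v _ => finrank_invariants_res_X U (𝒮.Dv v)

end Fermat.Agent.S55

end
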