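import Fermat.Agent.S55.Fc.Inst.Datum
import Fermat.Agent.S55.Fc.Mackey

/-!
# S55 F-con 9a: glue lemmas (trivial coefficients): group isomorphisms, subgroups of subgroups,
conjugate subgroups, Shapiro as a linear equivalence
-/

set_option autoImplicit false

noncomputable section

namespace Fermat.Agent.S55

open Representation Module

variable {k : Type} [Field k] {G H : Type} [Group G] [Group H]

/-- a group isomorphism which is a homeomorphism induces isomorphisms on `H^i(-, k)` -/
lemma trivRes_bijective {LG : Lev G} {LH : Lev H} (e : H ≃* G)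
    (h1 : Lev.Cont LH LG e.toMonoidHom) (h2 : Lev.Cont LG LH e.symm.toMonoidHom) :
    Function.Bijective (trivRes k e.toMonoidHom h1).H1map ∧
      Function.Bijective (trivRes k e.toMonoidHom h1).H2map := by
  have h := PairHom.bijective_of_equiv (trivRes k e.toMonoidHom h1) e.bijective
    (fun V hV => by
      obtain ⟨U, hU, hUV⟩ := h2 V hV
      refine ⟨U, hU, fun x hx => ?_⟩
      have := hUV hx
      simpa [trivRes] using this) Function.bijective_id
  exact h.2

/-- functoriality of `trivRes` -/
lemma trivRes_comp_H2 {K : Type} [Group K] {LG : Lev G} {LH : Lev H} {LK : Lev K} (f : H →* G)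
    (f' : K →* H) (hf : Lev.Cont LH LG f) (hf' : Lev.Cont LK LH f') :
    (trivRes k (f.comp f') (hf.comp hf')).H2map
      = (trivRes k f' hf').H2map ∘ₗ (trivRes k f hf).H2map := by
  rw [← PairHom.H2map_comp]
  rfl

lemma trivRes_comp_H1 {K : Type} [Group K] {LG : Lev G} {LH : Lev H} {LK : Lev K} (f : H →* G)
    (f' : K →* H) (hf : Lev.Cont LH LG f) (hf' : Lev.Cont LK LH f') :
    (trivRes k (f.comp f') (hf.comp hf')).H1map
      = (trivRes k f' hf').H1map ∘ₗ (trivRes k f hf).H1map := by
  rw [← PairHom.H1map_comp]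
  rfl

/-- the isomorphism `V ≃ V.map K.subtype` -/
def Glue.subSubEquiv (K : Subgroup G) (V : Subgroup K) : V ≃* V.map K.subtype :=
  V.equivMapOfInjective K.subtype K.subtype_injective

lemma Glue.subSubEquiv_coe (K : Subgroup G) (V : Subgroup K) (x : V) :
    ((Glue.subSubEquiv K V x : V.map K.subtype) : G) = ((x : K) : G) := rfl

lemma Glue.cont_subSubEquiv (L : Lev G) (K : Subgroup G) (V : Subgroup K) :
    Lev.Cont ((L.sub K).sub V) (L.sub (V.map K.subtype)) (Glue.subSubEquiv K V).toMonoidHom := by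
  rintro _ ⟨W, hW, rfl⟩
  exact ⟨(W.comap K.subtype).comap V.subtype, ⟨_, ⟨W, hW, rfl⟩, rfl⟩, fun x hx => hx⟩

lemma Glue.cont_subSubEquiv_symm (L : Lev G) (K : Subgroup G) (V : Subgroup K) :
    Lev.Cont (L.sub (V.map K.subtype)) ((L.sub K).sub V)
      (Glue.subSubEquiv K V).symm.toMonoidHom := by
  rintro _ ⟨_, ⟨W, hW, rfl⟩, rfl⟩
  refine ⟨W.comap (V.map K.subtype).subtype, ⟨W, hW, rfl⟩, fun x hx => ?_⟩
  obtain ⟨y, rfl⟩ := (Glue.subSubEquiv K V).surjective x
  change (((Glue.subSubEquiv K V).symm (Glue.subSubEquiv K V y) : V) : K).1 ∈ W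
  rw [MulEquiv.symm_apply_apply]
  exact hx

/-- subgroups of subgroups -/
lemma nonempty_H1_sub_sub (L : Lev G) (K : Subgroup G) (V : Subgroup K) :
    Nonempty (H1 ((L.sub K).sub V) (Representation.trivial k V k) ≃ₗ[k]
      H1 (L.sub (V.map K.subtype)) (Representation.trivial k (V.map K.subtype) k)) :=
  ⟨(LinearEquiv.ofBijective _ (trivRes_bijective (k := k) (Glue.subSubEquiv K V)
    (Glue.cont_subSubEquiv L K V) (Glue.cont_subSubEquiv_symm L K V)).1).symm⟩

lemma nonempty_H2_sub_sub (L : Lev G) (K : Subgroup G) (V : Subgroup K) :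
    Nonempty (H2 ((L.sub K).sub V) (Representation.trivial k V k) ≃ₗ[k]
      H2 (L.sub (V.map K.subtype)) (Representation.trivial k (V.map K.subtype) k)) :=
  ⟨(LinearEquiv.ofBijective _ (trivRes_bijective (k := k) (Glue.subSubEquiv K V)
    (Glue.cont_subSubEquiv L K V) (Glue.cont_subSubEquiv_symm L K V)).2).symm⟩

lemma Glue.isDiscrete_trivial (L : Lev G) : IsDiscrete L (Representation.trivial k G k) := by
  intro m
  obtain ⟨U, hU⟩ := L.nonempty
  exact ⟨U, hU, fun _ _ => rfl⟩

/-- Shapiro for the permutation module `X_U`, as linear equivalences -/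
lemma nonempty_H1_X (L : Lev G) (U : Subgroup G) (hU : L.IsOpen U) :
    Nonempty (H1 L (F.X k U) ≃ₗ[k] H1 (L.sub U) (Representation.trivial k U k)) :=
  ⟨LinearEquiv.ofBijective _ (shapiro_H1_bijective U.subtype (Representation.trivial k U k)
    U.subtype_injective (by simpa using hU) (L.induced_comap _) (Glue.isDiscrete_trivial _))⟩

lemma nonempty_H2_X (L : Lev G) (U : Subgroup G) (hU : L.IsOpen U) :
    Nonempty (H2 L (F.X k U) ≃ₗ[k] H2 (L.sub U) (Representation.trivial k U k)) :=
  ⟨LinearEquiv.ofBijective _ (shapiro_H2_bijective U.subtype (Representation.trivial k U k)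
    U.subtype_injective (by simpa using hU) (L.induced_comap _) (Glue.isDiscrete_trivial _))⟩

/-- index bookkeeping -/
lemma relIndex_map_subtype (K : Subgroup G) (V : Subgroup K) :
    (V.map K.subtype).relIndex K = V.index := by
  rw [Subgroup.relIndex, Subgroup.subgroupOf, Subgroup.comap_map_eq_self_of_injective
    K.subtype_injective]

end Fermat.Agent.S55

end
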