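import Fermat.Agent.S55.Fc.Trans.Glue

/-!
# S55 F-con 9b: `CoreNumbers` gives `F.LocalNumbers` at every place
-/

set_option autoImplicit false

noncomputable section

namespace Fermat.Agent.S55

open Representation Module

variable {G : Type} [Group G] (𝒮 : LocSys G) {p : ℕ} [Fact p.Prime]
variable {ω : G →* (ZMod p)ˣ} {dl : 𝒮.ι → ℕ}

/-- an open subgroup of `D`, pushed to `G`, is open in `D` -/
lemma LocSys.isOpenIn_map_subtype (D : Subgroup G) (U' : Subgroup D)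
    (hU : (𝒮.L'.sub D).IsOpen U') : 𝒮.IsOpenIn D (U'.map D.subtype) := by
  obtain ⟨_, ⟨V, hV, rfl⟩, hVU⟩ := hU
  refine ⟨V, hV, fun x hx => ?_⟩
  exact ⟨⟨x, hx.2⟩, hVU (show (⟨x, hx.2⟩ : D) ∈ V.comap D.subtype from hx.1), rfl⟩

lemma LocSys.map_subtype_le_ker (D : Subgroup G) (U' : Subgroup D)
    (hU : U' ≤ (ω.comp D.subtype).ker) : U'.map D.subtype ≤ ω.ker := by
  rintro _ ⟨u, hu, rfl⟩
  exact hU hu

/-- Shapiro + subgroups of subgroups, degree one -/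
lemma LocSys.nonempty_H1_X_local (D : Subgroup G) (U' : Subgroup D)
    (hU : (𝒮.L'.sub D).IsOpen U') :
    Nonempty (H1 (𝒮.L'.sub D) (F.X (ZMod p) U') ≃ₗ[ZMod p]
      H1 (𝒮.L'.sub (U'.map D.subtype))
        (Representation.trivial (ZMod p) (U'.map D.subtype) (ZMod p))) := by
  obtain ⟨e1⟩ := nonempty_H1_X (k := ZMod p) (𝒮.L'.sub D) U' hU
  obtain ⟨e2⟩ := nonempty_H1_sub_sub (k := ZMod p) 𝒮.L' D U'
  exact ⟨e1.trans e2⟩

/-- Shapiro + subgroups of subgroups, degree two -/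
lemma LocSys.nonempty_H2_X_local (D : Subgroup G) (U' : Subgroup D)
    (hU : (𝒮.L'.sub D).IsOpen U') :
    Nonempty (H2 (𝒮.L'.sub D) (F.X (ZMod p) U') ≃ₗ[ZMod p]
      H2 (𝒮.L'.sub (U'.map D.subtype))
        (Representation.trivial (ZMod p) (U'.map D.subtype) (ZMod p))) := by
  obtain ⟨e1⟩ := nonempty_H2_X (k := ZMod p) (𝒮.L'.sub D) U' hU
  obtain ⟨e2⟩ := nonempty_H2_sub_sub (k := ZMod p) 𝒮.L' D U'
  exact ⟨e1.trans e2⟩

theorem LocSys.CoreNumbers.localNumbers (h : 𝒮.CoreNumbers ω dl) (hω : 𝒮.L.IsOpen ω.ker)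
    (v : 𝒮.ι) :
    F.LocalNumbers (cohTheory (ZMod p) (𝒮.L'.sub (𝒮.Dv v))) (ω.comp (𝒮.Dv v).subtype) (dl v) := by
  have key1 : ∀ U' : Subgroup (𝒮.Dv v), (𝒮.L'.sub (𝒮.Dv v)).IsOpen U' →
      U' ≤ (ω.comp (𝒮.Dv v).subtype).ker →
      Module.Finite (ZMod p) (H1 (𝒮.L'.sub (𝒮.Dv v)) (F.X (ZMod p) U')) ∧
      finrank (ZMod p) (H1 (𝒮.L'.sub (𝒮.Dv v)) (F.X (ZMod p) U')) = 2 + dl v * U'.index := by
    intro U' hU hUω
    obtain ⟨e⟩ := 𝒮.nonempty_H1_X_local (p := p) (𝒮.Dv v) U' hU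
    obtain ⟨hf, hr⟩ := h.l1 v (U'.map (𝒮.Dv v).subtype) (Subgroup.map_subtype_le _)
      (𝒮.isOpenIn_map_subtype _ U' hU) (LocSys.map_subtype_le_ker _ U' hUω)
    refine ⟨Module.Finite.equiv e.symm, ?_⟩
    rw [e.finrank_eq, hr, relIndex_map_subtype]
  have key2 : ∀ U' : Subgroup (𝒮.Dv v), (𝒮.L'.sub (𝒮.Dv v)).IsOpen U' →
      U' ≤ (ω.comp (𝒮.Dv v).subtype).ker →
      finrank (ZMod p) (H2 (𝒮.L'.sub (𝒮.Dv v)) (F.X (ZMod p) U')) = 1 := by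
    intro U' hU hUω
    obtain ⟨e⟩ := 𝒮.nonempty_H2_X_local (p := p) (𝒮.Dv v) U' hU
    rw [e.finrank_eq]
    exact h.l2 v (U'.map (𝒮.Dv v).subtype) (Subgroup.map_subtype_le _)
      (𝒮.isOpenIn_map_subtype _ U' hU) (LocSys.map_subtype_le_ker _ U' hUω)
  refine
    { ω_open := ?_
      fin := ?_
      h1 := ?_
      h2 := ?_
      h2mu := ?_ }
  · exact Lev.IsOpen.comap hω (𝒮.cont_subtype (𝒮.Dv v))
  · intro U' hU hUω
    refine ⟨(key1 U' hU hUω).1, ?_⟩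
    have h2 : 0 < finrank (ZMod p) (H2 (𝒮.L'.sub (𝒮.Dv v)) (F.X (ZMod p) U')) := by
      rw [key2 U' hU hUω]; exact Nat.one_pos
    exact Module.finite_of_finrank_pos h2
  · intro U' hU hUω
    exact (key1 U' hU hUω).2
  · intro U' hU hUω
    exact key2 U' hU hUω
  · exact h.l2mu v

end Fermat.Agent.S55

end
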