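import Fermat.Agent.S55.Fc.Trans.Glue

/-!
# S55 F-con 9c1: restriction along `c_g` versus restriction to `U ⊓ g D g⁻¹`
-/

set_option autoImplicit false

noncomputable section

namespace Fermat.Agent.S55

open Representation Module

variable {k : Type} [Field k] {G : Type} [Group G] (𝒮 : LocSys G)

/-- `θ : D_g ≃* U ⊓ g D g⁻¹`, `d ↦ g d g⁻¹` -/
def shaAuxEquiv (U D : Subgroup G) (g : G) :
    ↥(mackeySub U D.subtype g) ≃* ↥(U ⊓ conjSub D g) where
  toFun d := ⟨g * ((d : D) : G) * g⁻¹, d.2, mem_conjSub.2 (by simp [mul_assoc])⟩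
  invFun x := ⟨⟨g⁻¹ * (x : G) * g, mem_conjSub.1 x.2.2⟩, by
    rw [mem_mackeySub]
    simpa [mul_assoc] using x.2.1⟩
  left_inv d := by
    apply Subtype.ext
    apply Subtype.ext
    simp [mul_assoc]
  right_inv x := by
    apply Subtype.ext
    simp [mul_assoc]
  map_mul' a b := by
    apply Subtype.ext
    simp [mul_assoc]

@[simp] lemma shaAuxEquiv_coe (U D : Subgroup G) (g : G) (d : ↥(mackeySub U D.subtype g)) :
    ((shaAuxEquiv U D g d : ↥(U ⊓ conjSub D g)) : G) = g * ((d : D) : G) * g⁻¹ := rfl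

@[simp] lemma shaAuxEquiv_symm_coe (U D : Subgroup G) (g : G) (x : ↥(U ⊓ conjSub D g)) :
    ((((shaAuxEquiv U D g).symm x : ↥(mackeySub U D.subtype g)) : D) : G) = g⁻¹ * (x : G) * g := rfl

lemma shaAuxEquiv_cont (L' : Lev G) (U D : Subgroup G) (g : G) :
    Lev.Cont ((L'.sub D).sub (mackeySub U D.subtype g)) (L'.sub (U ⊓ conjSub D g))
      (shaAuxEquiv U D g).toMonoidHom := by
  rintro _ ⟨V, hV, rfl⟩
  obtain ⟨V', hV', hVV⟩ := Lev.cont_conj L' g V hV
  exact ⟨_, ⟨_, ⟨V', hV', rfl⟩, rfl⟩, fun d hd => hVV hd⟩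

lemma shaAuxEquiv_symm_cont (L' : Lev G) (U D : Subgroup G) (g : G) :
    Lev.Cont (L'.sub (U ⊓ conjSub D g)) ((L'.sub D).sub (mackeySub U D.subtype g))
      (shaAuxEquiv U D g).symm.toMonoidHom := by
  rintro _ ⟨_, ⟨V, hV, rfl⟩, rfl⟩
  obtain ⟨V', hV', hVV⟩ := Lev.cont_conj L' g⁻¹ V hV
  refine ⟨_, ⟨V', hV', rfl⟩, fun x hx => ?_⟩
  have := hVV hx
  show g⁻¹ * (x : G) * g ∈ V
  simpa using this

/-- [Tr-c1] restriction along `c_g : D_g → U`, `d ↦ g d g⁻¹`, has the same kernel as restriction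
to the subgroup `U ⊓ g D g⁻¹`. -/
lemma LocSys.res_mackeyHom_eq_zero_iff (U D : Subgroup G) (g : G)
    (x : H2 (𝒮.L.sub U) (Representation.trivial k U k)) :
    (PairHom.res (Representation.trivial k U k) (mackeyHom U D.subtype g)
        (mackeyHom_cont U D.subtype (𝒮.cont_subtype D) g)).H2map x = 0 ↔
      (trivRes k (Subgroup.inclusion (inf_le_left : U ⊓ conjSub D g ≤ U))
        (𝒮.cont_inclusion _)).H2map x = 0 := by
  have hb := (trivRes_bijective (k := k) (shaAuxEquiv U D g) (shaAuxEquiv_cont 𝒮.L' U D g)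
    (shaAuxEquiv_symm_cont 𝒮.L' U D g)).2
  have key : (PairHom.res (Representation.trivial k U k) (mackeyHom U D.subtype g)
        (mackeyHom_cont U D.subtype (𝒮.cont_subtype D) g)).H2map x =
      (trivRes k (shaAuxEquiv U D g).toMonoidHom (shaAuxEquiv_cont 𝒮.L' U D g)).H2map
        ((trivRes k (Subgroup.inclusion (inf_le_left : U ⊓ conjSub D g ≤ U))
          (𝒮.cont_inclusion _)).H2map x) := by
    induction x using H2_induction with
    | h z => rfl
  rw [key]
  constructor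
  · intro h
    apply hb.1
    rw [map_zero]
    exact h
  · intro h
    rw [h, map_zero]
    rfl

end Fermat.Agent.S55

end
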